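/-
S56, architect file 5: local cohomology groups and Selmer sets.  Definitions only.  FIXED.
Owner: helper82.

For a representation `M` of `G_ℚ` over a field `k` and a prime `q`:
* `locRep M q`        : `M` as a representation of the local group `Gal(ℚ̄_q/ℚ_q)` (Prelude's
                        `primeLocalGaloisGroup q`, through `primeLocalToGlobal q`);
* `H1loc M q`         : `H¹(G_{ℚ_q}, M)` (F4's smooth model, all levels);
* `resLoc M q`        : `H¹(G_ℚ, M) → H¹(G_{ℚ_q}, M)`;
* `H0loc M q`         : `H⁰(G_{ℚ_q}, M)`;   `H0arch M` : `H⁰(ℝ, M)` (invariants of complex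
                        conjugation);   `H0glob M` : `H⁰(G_ℚ, M)`;
* `primesOf T`        : the primes in a finite set of natural numbers;
* `unrOutside S M`    : the classes of `H¹(G_ℚ, M)` which are unramified outside `S`
                        (= have a cocycle representative which is constant on the cosets of
                        `Gal(ℚ̄/F)`, `F/ℚ` finite Galois unramified outside `S`: image of
                        `H¹(G_S, M)`);
* `selSet S M S₀ L`   : the Selmer set: classes unramified outside `S` whose restriction at
                        every `v ∈ S₀` lies in `L v`.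
-/
import Fermat.Agent.S56.W1.Defs

set_option autoImplicit false

namespace Fermat.Agent.S56

open Fermat.Agent.F4 ExtCitation

variable {k : Type} [Field k]

/-- The primes in a finite set of natural numbers. -/
def primesOf (T : Finset ℕ) : Finset Nat.Primes := T.subtype Nat.Prime

theorem mem_primesOf {T : Finset ℕ} {q : Nat.Primes} : q ∈ primesOf T ↔ (q : ℕ) ∈ T :=
  Finset.mem_subtype

/-- `M` as a representation of the local Galois group at `q`. -/
noncomputable abbrev locRep (M : Rep k GQ) (q : Nat.Primes) : Rep k (primeLocalGaloisGroup q) :=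
  Rep.res (primeLocalToGlobal q) M

/-- `H¹(G_{ℚ_q}, M)`. -/
abbrev H1loc (M : Rep k GQ) (q : Nat.Primes) : Type :=
  H1sm (locLevelsAll q) (locRep M q)

/-- The restriction `H¹(G_ℚ, M) → H¹(G_{ℚ_q}, M)`. -/
noncomputable def resLoc (M : Rep k GQ) (q : Nat.Primes) :
    H1sm levelsAll M →ₗ[k] H1loc M q :=
  H1res levelsAll M (primeLocalToGlobal q)

/-- `H⁰(G_{ℚ_q}, M)`. -/
noncomputable def H0loc (M : Rep k GQ) (q : Nat.Primes) : Submodule k M where
  carrier := {m | ∀ h : primeLocalGaloisGroup q, M.ρ (primeLocalToGlobal q h) m = m}
  add_mem' := fun ha hb h => by rw [map_add, ha h, hb h]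
  zero_mem' := fun h => map_zero _
  smul_mem' := fun c _ ha h => by rw [map_smul, ha h]

/-- `H⁰(ℝ, M)`: the invariants of complex conjugation. -/
noncomputable def H0arch (M : Rep k GQ) : Submodule k M where
  carrier := {m | M.ρ complexConjugation m = m}
  add_mem' := fun {a b} ha hb => by
    show M.ρ complexConjugation (a + b) = a + b
    rw [map_add, show M.ρ complexConjugation a = a from ha,
      show M.ρ complexConjugation b = b from hb]
  zero_mem' := map_zero _
  smul_mem' := fun c a ha => by
    show M.ρ complexConjugation (c • a) = c • a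
    rw [map_smul, show M.ρ complexConjugation a = a from ha]

/-- `H⁰(G_ℚ, M)`. -/
noncomputable def H0glob (M : Rep k GQ) : Submodule k M where
  carrier := {m | ∀ g : GQ, M.ρ g m = m}
  add_mem' := fun ha hb g => by rw [map_add, ha g, hb g]
  zero_mem' := fun g => map_zero _
  smul_mem' := fun c _ ha g => by rw [map_smul, ha g]

/-- The cocycles which are constant on the cosets of `Gal(ℚ̄/F)` for some finite Galois `F/ℚ`
unramified outside `S`. -/
noncomputable def Z1unr (S : Finset Nat.Primes) (M : Rep k GQ) : Submodule k ↥(Z1 levelsAll M) where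
  carrier := {c | IsLC₁ (levelsS S) (c : GQ → M)}
  add_mem' := fun {a b} ha hb => IsLC₁.add (f := (a : GQ → M)) (f' := (b : GQ → M)) ha hb
  zero_mem' := isLC₁_const (levelsS S) (0 : M)
  smul_mem' := fun c a ha => IsLC₁.comp (f := (a : GQ → M)) ha (c • ·)

/-- The classes of `H¹(G_ℚ, M)` which are unramified outside `S`. -/
noncomputable def unrOutside (S : Finset Nat.Primes) (M : Rep k GQ) : Submodule k (H1sm levelsAll M) :=
  (Z1unr S M).map (H1smπ levelsAll M)

/-- The Selmer set: classes unramified outside `S` with restriction in `L v` at every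
`v ∈ S₀`. -/
noncomputable def selSet (S : Finset Nat.Primes) (M : Rep k GQ) (S₀ : Finset Nat.Primes)
    (L : ∀ v : Nat.Primes, AddSubgroup (H1loc M v)) : Set (H1sm levelsAll M) :=
  {x | x ∈ unrOutside S M ∧ ∀ v ∈ S₀, resLoc M v x ∈ L v}

end Fermat.Agent.S56
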