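/-
S56, architect file 6: the statements of the walls behind `SelmerWallC`, as definitions.  FIXED.
Owner: helper82.

* `IsCycloChar p χ` : `χ : G_ℚ → kˣ` is the mod `p` cyclotomic character;
* `LocalWall M T v B` : the restrictions at `v` of the classes in `T ⊆ H¹(G_ℚ, M)` lie in a finite
  subgroup `L ⊆ H¹(G_{ℚ_v}, M)` with `#L ≤ B · #H⁰(G_{ℚ_v}, M)`   (walls W3, W4);
* `GWStatement k p` : the Greenberg–Wiles inequality in cardinalities, with the dual Selmer group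
  killed by the auxiliary primes   (wall W2, sub-architect helper1).

`GWStatement` is Wiles' formula
  `#Sel_L(M) / #Sel_{L^⊥}(N) = #H⁰(G,M) / #H⁰(G,N) · ∏_{v ∈ S ∪ ∞} #L_v / #H⁰(G_v, M)`,  `N = M^*(1)`,
for `S = S₀ ⊔ Q`, `L_q = H¹(G_q, M)` for `q ∈ Q`, `L_∞ = 0`, in the case `H⁰(G, M) = 0` and
`Sel_{L^⊥}(N) ⊆ {n ∈ H¹(G_S, N) : res_q n = 0 for q ∈ Q} = 0`, with `#H⁰(G, N) ≥ 1` dropped.
-/
import Fermat.Agent.S56.Local.Defs
import Fermat.Agent.S56.WallsC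

set_option autoImplicit false

namespace Fermat.Agent.S56

open Fermat.Agent.F4 ExtCitation

/-- `χ` is the mod `p` cyclotomic character: `σ μ = μ ^ χ(σ)` for the `p`-th roots of unity. -/
def IsCycloChar {k : Type} [Field k] (p : ℕ) (χ : GQ →* kˣ) : Prop :=
  ∀ (σ : GQ) (a : ℕ), (∀ μ : AlgebraicClosure ℚ, μ ^ p = 1 → σ μ = μ ^ a) → (χ σ : k) = (a : k)

/-- **Local wall at `v` with bound `B`**: the restrictions at `v` of the classes in `T` lie in a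
finite subgroup of `H¹(G_{ℚ_v}, M)` with at most `B · #H⁰(G_{ℚ_v}, M)` elements. -/
def LocalWall {k : Type} [Field k] (M : Rep k GQ) (T : Set (H1sm levelsAll M)) (v : Nat.Primes)
    (B : ℕ) : Prop :=
  ∃ L : AddSubgroup (H1loc M v), (∀ x ∈ T, resLoc M v x ∈ L) ∧ Finite L ∧
    Nat.card L ≤ B * Nat.card (H0loc M v)

/-- **Wall W2** (Greenberg–Wiles inequality, dual Selmer group killed). -/
def GWStatement (k : Type) [Field k] (p : ℕ) [Fact p.Prime] : Prop :=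
  ∀ (M : Rep k GQ) (χ : GQ →* kˣ) (S₀ Q : Finset Nat.Primes)
    (L : ∀ v : Nat.Primes, AddSubgroup (H1loc M v)),
    IsCycloChar p χ → Module.Finite k M → IsSmooth (levelsS (S₀ ∪ Q)) M →
    pPrime p ∈ S₀ → Disjoint S₀ Q → H0glob M = ⊥ →
    (∀ v ∈ S₀, Finite (L v)) → (∀ q ∈ Q, Finite (H1loc M q)) →
    (∀ n ∈ unrOutside (S₀ ∪ Q) (M.dualTwist χ),
      (∀ q ∈ Q, resLoc (M.dualTwist χ) q n = 0) → n = 0) →
    (selSet (S₀ ∪ Q) M S₀ L).Finite ∧
      (selSet (S₀ ∪ Q) M S₀ L).ncard * (∏ v ∈ S₀ ∪ Q, Nat.card (H0loc M v)) *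
          Nat.card (H0arch M)
        ≤ (∏ v ∈ S₀, Nat.card (L v)) * ∏ q ∈ Q, Nat.card (H1loc M q)

end Fermat.Agent.S56
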